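import Fermat.Statements.S02
-- import your own Fermat.Agent.* helpers here

set_option autoImplicit false
open FreyPackage

namespace Fermat.Agent.S02

/-- Core case: `a`, `b` coprime and `b` even. -/
theorem core {a b c : ℤ} (ha : a ≠ 0) (hb : b ≠ 0) (hc : c ≠ 0) (hab : gcd a b = 1)
    (p : ℕ) (pp : p.Prime) (hp5 : 5 ≤ p) (H : a ^ p + b ^ p = c ^ p)
    (hb2 : (2 : ℤ) ∣ b) : Nonempty FreyPackage := by
  have p_odd : Odd p := pp.odd_of_ne_two (by omega)
  have ha_odd : ¬ (2 : ℤ) ∣ a := by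
    intro h
    have h2 : (2 : ℤ) ∣ gcd a b := dvd_gcd h hb2
    rw [hab] at h2
    norm_num at h2
  have h13 : a % 4 = 1 ∨ a % 4 = 3 := by omega
  have hb2' : ((b : ℤ) : ZMod 2) = 0 := (ZMod.intCast_zmod_eq_zero_iff_dvd b 2).2 hb2
  rcases h13 with h1 | h3
  · refine ⟨⟨-a, -b, -c, neg_ne_zero.2 ha, neg_ne_zero.2 hb, neg_ne_zero.2 hc, p, pp, hp5,
      ?_, ?_, ?_, ?_⟩⟩
    · rw [p_odd.neg_pow, p_odd.neg_pow, p_odd.neg_pow, ← H]; ring
    · rw [gcd_neg, neg_gcd]; exact hab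
    · have h4 : ((-a : ℤ) : ZMod 4) = ((3 : ℤ) : ZMod 4) := by
        rw [ZMod.intCast_eq_intCast_iff_dvd_sub]
        omega
      simpa using h4
    · push_cast
      rw [hb2', neg_zero]
  · refine ⟨⟨a, b, c, ha, hb, hc, p, pp, hp5, H, hab, ?_, hb2'⟩⟩
    have h4 : ((a : ℤ) : ZMod 4) = ((3 : ℤ) : ZMod 4) := by
      rw [ZMod.intCast_eq_intCast_iff_dvd_sub]
      omega
    simpa using h4

/-- Coprime case. -/
theorem coprime_case {a b c : ℤ} (ha : a ≠ 0) (hb : b ≠ 0) (hc : c ≠ 0) (hab : gcd a b = 1)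
    (p : ℕ) (pp : p.Prime) (hp5 : 5 ≤ p) (H : a ^ p + b ^ p = c ^ p) :
    Nonempty FreyPackage := by
  have p_odd : Odd p := pp.odd_of_ne_two (by omega)
  have hp0 : p ≠ 0 := pp.ne_zero
  by_cases hb2 : (2 : ℤ) ∣ b
  · exact core ha hb hc hab p pp hp5 H hb2
  by_cases ha2 : (2 : ℤ) ∣ a
  · refine core hb ha hc ?_ p pp hp5 ?_ ha2
    · rw [gcd_comm]; exact hab
    · rw [add_comm]; exact H
  -- both `a` and `b` odd, so `c` is even
  have hc2 : (2 : ℤ) ∣ c := by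
    have hao : Odd a := by
      rcases Int.even_or_odd a with h | h
      · exact absurd (even_iff_two_dvd.1 h) ha2
      · exact h
    have hbo : Odd b := by
      rcases Int.even_or_odd b with h | h
      · exact absurd (even_iff_two_dvd.1 h) hb2
      · exact h
    have hce : Even (c ^ p) := by
      rw [← H]
      exact (hao.pow).add_odd (hbo.pow)
    have : Even c := (Int.even_pow.1 hce).1
    exact even_iff_two_dvd.1 this
  have hac : gcd a c = 1 := by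
    rw [← gcdab_eq_gcdac pp.pos H, hab]
  refine core (c := -b) ha (neg_ne_zero.2 hc) (neg_ne_zero.2 hb) ?_ p pp hp5 ?_ ?_
  · rw [gcd_neg]; exact hac
  · rw [p_odd.neg_pow, p_odd.neg_pow, ← H]; ring
  · exact (dvd_neg).2 hc2

theorem result (a b c : ℤ) (ha : a ≠ 0) (hb : b ≠ 0) (hc : c ≠ 0) (p : ℕ) (pp : p.Prime) (hp5 : 5 ≤ p) (H : a ^ p + b ^ p = c ^ p) : Nonempty FreyPackage := by
  have hp0 : p ≠ 0 := pp.ne_zero
  have hpos : 0 < Int.gcd a b := Int.gcd_pos_of_ne_zero_left b ha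
  obtain ⟨a', b', hab', ha', hb'⟩ := Int.exists_gcd_one hpos
  set d : ℤ := (Int.gcd a b : ℤ) with hd
  have hd0 : d ≠ 0 := by
    rw [hd]; exact_mod_cast hpos.ne'
  have ha'0 : a' ≠ 0 := by
    rintro rfl
    apply ha; rw [ha']; simp
  have hb'0 : b' ≠ 0 := by
    rintro rfl
    apply hb; rw [hb']; simp
  -- `d ∣ c`
  have hdc : d ∣ c := by
    rw [← Int.pow_dvd_pow_iff hp0, ← H, ha', hb', mul_pow, mul_pow]
    exact dvd_add (dvd_mul_left _ _) (dvd_mul_left _ _)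
  obtain ⟨c', hc'⟩ := hdc
  have hc'0 : c' ≠ 0 := by
    rintro rfl
    apply hc; rw [hc']; simp
  have H' : a' ^ p + b' ^ p = c' ^ p := by
    have hdp : d ^ p ≠ 0 := pow_ne_zero _ hd0
    apply mul_left_cancel₀ hdp
    rw [ha', hb', hc'] at H
    linear_combination H
  exact coprime_case ha'0 hb'0 hc'0 (by rw [← Int.coe_gcd, hab']; rfl) p pp hp5 H'

end Fermat.Agent.S02
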