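import Fermat.Statements.S07
import Fermat.Prelude.Thm_ModularForm_sturm_bound_Gamma0
import Fermat.Prelude.Thm_CongruenceSubgroup_one_mem_strictPeriods_Gamma0
import Fermat.Agent.Lib.Gamma0Index
-- import your own Fermat.Agent.* helpers here

set_option autoImplicit false
open WeierstrassCurve WeierstrassCurve.Affine WeierstrassCurve.Affine.Point
open CuspForm ModularFormClass UpperHalfPlane
open ModularForm

namespace Fermat.Agent.S07

theorem result (f : CuspForm (CongruenceSubgroup.Gamma0 2) 2) : f = 0 := by
  have h1 : (1 : ℝ) ∈ (Subgroup.map (Matrix.SpecialLinearGroup.mapGL ℝ)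
      (CongruenceSubgroup.Gamma0 2)).strictPeriods :=
    CongruenceSubgroup.one_mem_strictPeriods_Gamma0 2
  have hzero : (CuspForm.toModularFormₗ f) = 0 := by
    apply ModularForm.sturm_bound_Gamma0 2
    intro n hn
    have hidx := Fermat.Agent.Lib.Gamma0Index.index_Gamma0_two_le
    have hn0 : n = 0 := by
      have : ((2 : ℤ) * ((CongruenceSubgroup.Gamma0 2).index : ℤ)).toNat / 12 = 0 := by
        omega
      omega
    subst hn0
    exact CuspFormClass.qExpansion_coeff_zero (Γ := (Subgroup.map (Matrix.SpecialLinearGroup.mapGL ℝ)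
      (CongruenceSubgroup.Gamma0 2))) (k := 2) f one_pos h1
  exact CuspForm.toModularFormₗ_injective (by simpa using hzero)

end Fermat.Agent.S07
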