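import Fermat.Statements.S08
import Fermat.Prelude.Thm_ModularForm_sturm_bound_Gamma0
import Fermat.Prelude.Thm_CongruenceSubgroup_one_mem_strictPeriods_Gamma0

set_option autoImplicit false
open WeierstrassCurve WeierstrassCurve.Affine WeierstrassCurve.Affine.Point
open CuspForm ModularFormClass UpperHalfPlane
open ModularForm

namespace Fermat.Agent.S08

/-- A cusp form viewed as a modular form. -/
noncomputable def toModularForm {N : ℕ} {k : ℤ} (f : CuspForm (CongruenceSubgroup.Gamma0 N) k) :
    ModularForm (CongruenceSubgroup.Gamma0 N) k where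
  toSlashInvariantForm := f.toSlashInvariantForm
  holo' := f.holo'
  bdd_at_cusps' := fun hc g hg => (f.zero_at_cusps' hc g hg).isBoundedAtImInfty

theorem eq_zero_of_index_small {N : ℕ} [NeZero N] {k : ℤ}
    (f : CuspForm (CongruenceSubgroup.Gamma0 N) k)
    (h : (k * (CongruenceSubgroup.Gamma0 N).index).toNat / 12 = 0) : f = 0 := by
  have h0 : toModularForm f = 0 := by
    apply ModularForm.sturm_bound_Gamma0 N (toModularForm f)
    intro n hn
    rw [h] at hn
    have hn0 : n = 0 := Nat.le_zero.mp hn
    subst hn0
    exact CuspFormClass.qExpansion_coeff_zero (f := f) one_pos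
      (CongruenceSubgroup.one_mem_strictPeriods_Gamma0 N)
  ext z
  have := congrArg (fun g : ModularForm (CongruenceSubgroup.Gamma0 N) k => g z) h0
  exact this

theorem result (f : CuspForm (CongruenceSubgroup.Gamma0 1) 2) : f = 0 := by
  apply eq_zero_of_index_small
  have : (CongruenceSubgroup.Gamma0 1) = ⊤ := by
    ext g
    simp [CongruenceSubgroup.Gamma0_mem, Subsingleton.elim (α := ZMod 1) _ 0]
  rw [this, Subgroup.index_top]
  norm_num

end Fermat.Agent.S08
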