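-- Statement S10 (row 9).  Proof by vacuity: a Frey package with exponent `p ∈ {5, 7, 13}` would be a
-- counterexample to Fermat's Last Theorem for `p`, which is proved (Kummer, class number one case)
-- in `Fermat.Agent.FLTReg.FLT5`, `FLT7`, `FLT13`.
import Fermat.Statements.S10
import Fermat.Agent.FLTReg.FLT5
import Fermat.Agent.FLTReg.FLT7
import Fermat.Agent.FLTReg.FLT13

set_option autoImplicit false
open WeierstrassCurve WeierstrassCurve.Affine WeierstrassCurve.Affine.Point
open CuspForm ModularFormClass UpperHalfPlane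
open FreyPackage

namespace Fermat.Agent.S10

theorem result (P : FreyPackage) (hp : P.p = 5 ∨ P.p = 7 ∨ P.p = 13) : ¬ HasGaloisStableCofixedLine (K := AlgebraicClosure ℚ) ℚ P.freyCurve P.p := by
  exfalso
  rcases hp with h | h | h
  · exact Fermat.Agent.FLTReg.Top.freyPackage_false_of_flt P (h ▸ Fermat.Agent.FLTReg.flt_five)
  · exact Fermat.Agent.FLTReg.Top.freyPackage_false_of_flt P (h ▸ Fermat.Agent.FLTReg.flt_seven)
  · exact Fermat.Agent.FLTReg.Top.freyPackage_false_of_flt P (h ▸ Fermat.Agent.FLTReg.flt_thirteen)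

end Fermat.Agent.S10
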