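-- Statement S11 (row 10).  Proof by vacuity: a Frey package with exponent `11` would be a
-- counterexample to Fermat's Last Theorem for `11`, which is proved (Kummer, class number one case)
-- in `Fermat.Agent.FLTReg.FLT11`.
import Fermat.Statements.S11
import Fermat.Agent.FLTReg.FLT11

set_option autoImplicit false
open WeierstrassCurve WeierstrassCurve.Affine WeierstrassCurve.Affine.Point
open CuspForm ModularFormClass UpperHalfPlane
open FreyPackage

namespace Fermat.Agent.S11

theorem result (P : FreyPackage) (hp : P.p = 11) : ¬ HasGaloisStableCofixedLine (K := AlgebraicClosure ℚ) ℚ P.freyCurve P.p := by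
  exfalso
  exact Fermat.Agent.FLTReg.Top.freyPackage_false_of_flt P (hp ▸ Fermat.Agent.FLTReg.flt_eleven)

end Fermat.Agent.S11
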