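-- S13: a reducible mod-p representation of the Frey curve has a Galois-stable cofixed line.
-- Elementary proof (team S13, owner/integrator helper4; blueprint 7), no class field theory:
--   Assembly (helper4)        : Fermat/Agent/S13/Assembly.lean, TWeakGlue.lean
--   GAL (helper26), LP at p (helper48), TAME (helper14), MASS (helper86, helper53)
--   MINK (helper42 Lib/InertiaGenerate, helper67 Mink67)
--   L2 (helper8, helper34, helper93, helper1, helper40, helper98, helper77)
--   T easy half (helper58 DivWeak58), T existence (helper43 Lib/TorsionExists)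
--   S05 (team S05) for the primes q ∤ 2p.
import Fermat.Statements.S13
import Fermat.Agent.S13.Assembly
import Fermat.Agent.S13.TWeakGlue
import Fermat.Agent.S13.DivWeak58
import Fermat.Agent.S13.TNontriv43
import Fermat.Agent.S13.Mink67
import Fermat.Agent.S13.L2Frey2
import Fermat.Agent.S13.L2a
import Fermat.Agent.S13.L2b

set_option autoImplicit false
open WeierstrassCurve WeierstrassCurve.Affine WeierstrassCurve.Affine.Point
open CuspForm ModularFormClass UpperHalfPlane
open FreyPackage

namespace Fermat.Agent.S13

/-- The easy half of the division polynomial criterion over `ℚ̄` (helper58). -/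
theorem easyHalf : TWeakGlue.EasyHalfStmt :=
  fun W _ _ hp hp2 _ _ h hP => DivWeak58.preΨ_eval_eq_zero W two_ne_zero hp hp2 h hP

theorem result (P : FreyPackage) (hred : ¬ GaloisRepIsIrreducible (K := AlgebraicClosure ℚ) ℚ P.freyCurve P.p) : HasGaloisStableCofixedLine (K := AlgebraicClosure ℚ) ℚ P.freyCurve P.p :=
  Asm.s13_of_weak (TWeakGlue.tFin_of_easy easyHalf) TNontriv43.tNontriv
    (TWeakGlue.massExtra_of_easy easyHalf) Mink67.mink L2Frey2.freyIntegral L2a.l2Unipotent
    L2b.l2NoRational P hred

end Fermat.Agent.S13
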