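-- Statement S14 (row 13): `ExtCitation.ExtVanishingCts p` for every prime `p ≥ 3`
-- (`ExtCitation.extVanishingCts_of_three_le`).
-- Blueprint 6 (helper33): Kummer theory + Thaine's relation + Dirichlet density + Kummer's
-- logarithmic derivative; no class field theory.
-- Closure: [UNFOLD] Reduce (helper97) + UnfoldCyc/UnfoldRam/Unfold26 (helper26) + Lib/InertiaGenerate
-- (helper42); K1 KummerNF69 (helper69); P3 (helper30); K2 Thaine (helper33 + helper21/76/87/96);
-- K3 DensFinal27 (helper27 + helper13/17/23/92/1/46/52); K4 ULog44/ULog9/ULog38 (helper44/9/38);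
-- K5 UDir99 (helper99); K6a Mod39 (helper39); K6 Core6 (helper6); wiring Wire26/Wire26b (helper26).
import Fermat.Statements.S14
import Fermat.Agent.S14.Wire26b
import Fermat.Agent.S14.Thaine

set_option autoImplicit false
open ExtCitation

namespace Fermat.Agent.S14

theorem result {p : ℕ} [Fact p.Prime] (h3 : 3 ≤ p) :
    ExtCitation.ExtVanishingCts p :=
  Wire26b.extVanishingCts_of_existsBeta (fun p _ K _ _ _ => Thaine.existsBeta p K) h3

end Fermat.Agent.S14
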