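-- Statement S20 (row 19): dim S₂(Γ₀(N)) = genusFormula N.
-- Assembly (helper20): upper bound from the S21 team (period lattice + maximum principle +
-- parabolic cohomology bound), lower bound = S24 (genus of F_N) + T1 (Dedekind–Weber:
-- regular differentials of a function field have dimension = genus) + T3ge (regular differentials
-- of F_N give cusp forms with ℚ̄-rational q-expansions).
import Fermat.Statements.S20
import Fermat.Agent.S21.Main
import Fermat.Agent.S20.T3Final
import Fermat.Agent.S20.T1.Final
import Fermat.Agent.S24.Exports

set_option autoImplicit false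
open CuspForm

namespace Fermat.Agent.S20

theorem result (N : ℕ) [NeZero N] :
    (Module.finrank ℂ (CuspForm (CongruenceSubgroup.Gamma0 N) 2) : ℚ) = ModularCurve.genusFormula N := by
  apply le_antisymm (Fermat.Agent.S21.Main.finrank_cuspForm_le N)
  have hF := Fermat.Agent.S24.Exports.isFunctionFieldOver_jF N
  have hC := Fermat.Agent.S20.hasCanonicalDivisor_of_isFunctionFieldOver hF
  rw [← Fermat.Agent.S24.Exports.genus_eq N]
  have h1 := Fermat.Agent.S20.finrank_HolF_eq_genus_of_isFunctionFieldOver hF
  have h2 := Fermat.Agent.S20.T3Final.finrank_HolF_le N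
  rw [h1] at h2
  exact_mod_cast h2

end Fermat.Agent.S20
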