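import Fermat.Statements.S16
import Fermat.Agent.S16.LowerDone90
import Fermat.Agent.S16.UFinal39
import Fermat.Agent.S16.Wire3
import Fermat.Agent.S16.Eis17.Iface39
import Fermat.Agent.S16.Norm23
import Fermat.Agent.S16.LemmaT72Final
import Fermat.Agent.S16.EllP40.UpFinal

set_option autoImplicit false
open ModularCurve CuspForm
open ModularCurve

namespace Fermat.Agent.S16

theorem result
    (p : ℕ) [Fact p.Prime] :
    Nat.card (↥(heckeLatticeAlgebra p ∅) ⧸
        Ideal.map ((latticeRestrictHom p ∅).toRingHom.comp (heckeEvalForms p 2))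
          (eisensteinIdeal p)) =
      eisensteinNumerator p :=
  Wire3.s16_of
    (UFinal39.upperStmt_of LemmaT72.u1Stmt Norm23.uSwDStmt Norm23.u9Stmt Norm23.u8Stmt
      EllP40.upStmt Eis17.eisStmt) p (LowerDone90.eisCong_lower p)

end Fermat.Agent.S16
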