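-- Statement S18 (row 17): injectivity of reduction mod ℓ on prime-to-ℓ torsion of J₀(N).
-- Assembly: `Spine33.s18_of_spine` applied to the five closed plugs
--   NORMALIZE (P1Normalize20), LEVEL (LevelDone33), DESCENT (Descent26),
--   TRANSFER (Transfer56), CUSPinf (CuspInfty56).
import Fermat.Statements.S18
import Fermat.Agent.S18.Spine33
import Fermat.Agent.S18.P1Normalize20
import Fermat.Agent.S18.LevelDone33
import Fermat.Agent.S18.Descent26
import Fermat.Agent.S18.Transfer56
import Fermat.Agent.S18.CuspInfty56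

set_option autoImplicit false
open ModularCurve

namespace Fermat.Agent.S18

theorem result (N : ℕ) [NeZero N] {ℓ : ℕ}
    [Fact ℓ.Prime] (hℓN : ¬ ℓ ∣ N) (A : ValuationSubring (AlgebraicClosure ℚ)) (hA : A.LiesOverPrime ℓ)
    (h : ModularCurve.ReductionInputsModL A N) (m : ℕ) (hm : ¬ ℓ ∣ m) (z : ModularCurve.JZero N)
    (hmz : m • z = 0) (hz : ModularCurve.reductionModL A N z = 0) :
    z = 0 :=
  Spine33.s18_of_spine P1Normalize20.normalize LevelDone33.level Descent26.descent
    Transfer56.transfer CuspInfty56.cuspInfty N hℓN A hA h m hm z hmz hz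

end Fermat.Agent.S18
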