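import Fermat.Statements.S28
-- import your own Fermat.Agent.* helpers here
import Fermat.Agent.S28.Assembly
import Fermat.Agent.S28.AG
import Fermat.Agent.S28.TensorPkg
import Fermat.Agent.S28.KeyGlueIface
import Fermat.Agent.S28.KeyUpper
import Fermat.Agent.S28.PrimeIrredMain
import Fermat.Agent.S28.KeyLowerMain
import Fermat.Agent.S28.ModEq
import Fermat.Agent.S28.AlgFinal61

set_option autoImplicit false
open AlgebraicGeometry CategoryTheory CategoryTheory.Limits ModularCurve ModularCurve.IgusaScheme
noncomputable section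
set_option autoImplicit false
open ModularCurve ModularCurve.IgusaScheme

namespace Fermat.Agent.S28

set_option maxHeartbeats 4000000 in
set_option synthInstance.maxHeartbeats 400000 in
theorem result
    (N : ℕ) [NeZero N] (ℓ : ℕ) [Fact ℓ.Prime] (hℓN : ¬ ℓ ∣ N)
    (K : Type) [Field K] [CharP K ℓ] [Algebra ↥(GaloisRep.ratLocalizedAt ℓ) K] :
    IsIntegral ↑(pullback (igusaTo N ℓ)
      (Spec.map (CommRingCat.ofHom (algebraMap ↥(GaloisRep.ratLocalizedAt ℓ) K)))) := by
  exact result_of
    (fun N _ ℓ _ K _ _ hfin hinf hmid => AG.isIntegral_pullback_igusaTo N ℓ K hfin hinf hmid)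
    Tensor.tensorStatement N ℓ K
    (AlgFinal.redStatement N ℓ
      (keyStatement_of_keyLower_keyUpper N ℓ
        (KeyLower.keyLower modEqStatement N ℓ hℓN)
        (KEY0.keyUpper modEqStatement (fun p _ hp D => P1.p1Statement p hp.two_le D) N)))

end Fermat.Agent.S28
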