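-- Statement S37 (row 36): SpecializationExists for J₀(N) (Eichler–Shimura + unramifiedness + torsion
-- injectivity of a reduction map, at every prime ℓ ∤ N p and every valuation subring A | ℓ of ℚ̄).
-- Assembly: `Concrete77.s37_of_inputs` (ρ_A = class of r_* ∘ σ_s^* at the good level s N;
--   (I)/(FROB)/(ES) on principal divisors [GalFn75, EsFn77, KronRedStmt17] extended by Bounded65 via
--   Assembly52; (T) = RhoTM77 from the S18 spine; formal half Reduce52/Quot52) applied to
--   LEVEL (LevelDone33.level, S18 plug P2) and [R]-INST (RInst88.reductionInputs).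
import Fermat.Statements.S37
import Fermat.Agent.S37.Concrete77
import Fermat.Agent.S37.RInst88.Final
import Fermat.Agent.S18.LevelDone33

set_option autoImplicit false
open ModularCurve

namespace Fermat.Agent.S37

theorem result (N p : ℕ) [NeZero N] (hcomm : ModularCurve.HeckeOperatorsCommuteBar N) : letI := ModularCurve.heckeModuleBar N; ∀ (_ : SMulCommClass (AlgebraicClosure ℚ ≃ₐ[ℚ] AlgebraicClosure ℚ) ModularCurve.HeckeAlg (ModularCurve.JZero N)), ModularCurve.SpecializationExists (K := ℚ) (L := AlgebraicClosure ℚ) N p (ModularCurve.JZero N) :=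
  Concrete77.s37_of_inputs N p hcomm Fermat.Agent.S18.LevelDone33.level
    (fun M ℓ _ _ hℓM hgood A hA => RInst88.reductionInputs M ℓ hℓM hgood A hA)

end Fermat.Agent.S37
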