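import Fermat.Statements.S49
-- import your own Fermat.Agent.* helpers here
import Fermat.Agent.S49.Eigen
import Fermat.Agent.S49.LinAlg2
import Fermat.Agent.S49.LinAlg3

set_option autoImplicit false
open CuspForm EisensteinWeightOne CongruenceSubgroup ModularFormClass
open FLT FLT.AbstractIntegralStructure

namespace Fermat.Agent.S49

theorem result
    {N : ℕ} [NeZero N] (h : CuspForm.HasIntegralBasis N) {a : ℕ → ℤ}
    (heig : FormalHecke.IsEigensystem
      (fun ℓ => if ℓ ∣ N then 0 else ((chiNegThree ℓ : ℤ) : ℤ)) a)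
    (hreal : CuspForm.IsLatticeRealized N a) :
    ∃ (f : CuspForm (Gamma0 N) 2) (_ : f.IsNormalizedEigenform)
      (𝔪' : Ideal (integralClosure ℤ ℂ)), 𝔪'.IsMaximal ∧
      ((3 : ℕ) : integralClosure ℤ ℂ) ∈ 𝔪' ∧
      ∀ (ℓ : ℕ) (_ : ℓ.Prime) (_ : ¬ ℓ ∣ N),
        ∃ c : integralClosure ℤ ℂ, (c : ℂ) = ModularFormClass.qCoeff f ℓ ∧
          c - (a ℓ : integralClosure ℤ ℂ) ∈ 𝔪' := by
  classical
  -- Step A: the mod 3 datum
  obtain ⟨f₀, -, af, haf₀, hdiv⟩ := hreal
  have hf₀ : ∀ n, qCoeff ⇑f₀ n = (af n : ℂ) := fun n => (haf₀ n).symm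
  have haf : ∀ n, (af n : ZMod 3) = (a n : ZMod 3) := by
    intro n
    have h1 : (3 : ℤ) ∣ af n - a n := by
      have := dvd_add (hdiv n) (bridgeProduct_coeff_sub a n)
      simpa using this
    rw [eq_comm, ZMod.intCast_eq_intCast_iff_dvd_sub]
    exact_mod_cast h1
  -- finiteness and spanning
  have hspan := span_intLattice_eq_top h
  have hfin : Module.Finite ℂ (VV N) := finite_of_hasIntegralBasis h
  -- the maximal ideal
  have hmax : (ideal3 f₀).IsMaximal := ideal3_isMaximal hf₀ haf heig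
  -- integrality of the Hecke algebra
  have hint : ∀ T : TT N, IsIntegral ℤ T := by
    intro T
    have h1 : IsIntegral ℤ (T : Module.End ℂ (VV N)) :=
      isIntegral_of_mapsTo_lattice (CuspForm.intLattice N 2) (CuspForm.intLattice_fg N 2) hspan _
        (fun x hx => CuspForm.mem_intLattice_of_mem_heckeAlgebra (by norm_num) T.2 hx)
    exact (isIntegral_algHom_iff (TT N).val Subtype.val_injective).mp h1
  -- abstract lifting
  obtain ⟨v, φ, 𝔪, hv0, hv, h𝔪max, h𝔪⟩ :=
    abstract_lifting (K := ℂ) (V := VV N) (A := TT N)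
      ((TT N).val : TT N →+* Module.End ℂ (VV N)) Subtype.val_injective (ideal3 f₀) hint
  let ψ : TT N → ℂ := fun T => ((φ T : integralClosure ℤ ℂ) : ℂ)
  have hv' : ∀ T : TT N, (T : Module.End ℂ (VV N)) v = ψ T • v := fun T => hv T
  -- nonvanishing of the first coefficient
  have hc1 : qCoeff ⇑v 1 ≠ 0 := by
    intro h1
    apply hv0
    apply eq_zero_of_qc
    exact eig_zero (e := fun ℓ => if ℓ ∣ N then 0 else (ℓ : ℂ)) (qc_cusp_zero v) h1
      (fun ℓ hℓ => ⟨eigval ψ ℓ hℓ, eigen_rel ψ v hv' ℓ hℓ⟩)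
  -- the normalised eigenform
  let f : VV N := (qCoeff ⇑v 1)⁻¹ • v
  have hf : ∀ T : TT N, (T : Module.End ℂ (VV N)) f = ψ T • f := by
    intro T
    simp only [f, map_smul, hv' T]
    rw [smul_comm]
  have hb1 : qCoeff ⇑f 1 = 1 := by
    simp only [f, qc_smul]
    exact inv_mul_cancel₀ hc1
  have heigval : ∀ (ℓ : ℕ) (hℓ : ℓ.Prime), eigval ψ ℓ hℓ = qCoeff ⇑f ℓ := by
    intro ℓ hℓ
    have h1 := eigen_rel ψ f hf ℓ hℓ 1
    rw [if_neg hℓ.not_dvd_one, mul_zero, add_zero, mul_one, hb1, mul_one] at h1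
    exact h1.symm
  have hsys : FormalHecke.IsEigensystem (fun ℓ => if ℓ ∣ N then 0 else (ℓ : ℂ))
      (fun n => qCoeff ⇑f n) := by
    refine ⟨hb1, fun ℓ hℓ n => ?_⟩
    have h1 := eigen_rel ψ f hf ℓ hℓ n
    rw [heigval] at h1
    exact h1
  have hrec := isRecursive_of_isEigensystem hsys
  have hnorm : f.IsNormalizedEigenform := by
    refine ⟨hb1, hrec.2.1, ?_, ?_⟩
    · intro p r hp hpN
      have := hrec.2.2 p r hp
      simpa only [if_neg hpN] using this
    · intro p r hp hpN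
      have := hrec.2.2 p r hp
      simpa only [if_pos hpN, zero_mul, sub_zero] using this
  refine ⟨f, hnorm, 𝔪, h𝔪max, ?_, ?_⟩
  · have h3 : algebraMap ℤ (TT N) 3 ∈ ideal3 f₀ :=
      algebraMap_mem_ideal3 hf₀ (by decide)
    rw [← h𝔪, Ideal.mem_comap, eq_intCast, map_intCast] at h3
    simpa using h3
  · intro ℓ hℓ hℓN
    refine ⟨φ (heckeAlgebra.T hℓ hℓN (Set.notMem_empty ℓ)), ?_, ?_⟩
    · have := heigval ℓ hℓ
      unfold eigval at this
      rw [dif_neg hℓN] at this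
      exact this
    · have h1 := T_sub_mem_ideal3 hf₀ haf heig hℓ hℓN
      rw [← h𝔪, Ideal.mem_comap, map_sub] at h1
      simpa using h1

end Fermat.Agent.S49
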