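import Fermat.Statements.S51
import Fermat.Agent.S51.Defs
import Fermat.Agent.S51.ThreeTorsion
import Fermat.Agent.S51.Galois5
import Fermat.Agent.S51.Descent
import Fermat.Agent.S51.Algebra
import Fermat.Agent.S51.JSemistable

set_option autoImplicit false
open WeierstrassCurve WeierstrassCurve.Affine WeierstrassCurve.Affine.Point
open CuspForm ModularFormClass UpperHalfPlane
open WeierstrassCurve

namespace Fermat.Agent.S51

theorem result (W : WeierstrassCurve ℤ) (hΔ : W.Δ ≠ 0) (hW : W.IsSemistableModel) : W.ModRepIsIrreducible 3 ∨ W.ModRepIsIrreducible 5 := by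
  by_contra hcon
  rw [not_or] at hcon
  obtain ⟨h3, h5⟩ := hcon
  unfold WeierstrassCurve.ModRepIsIrreducible at h3 h5
  -- the curve over ℚ
  obtain ⟨E, hE⟩ : ∃ E : WeierstrassCurve ℚ, E = W.map (Int.castRingHom ℚ) := ⟨_, rfl⟩
  rw [← hE] at h3 h5
  have hc4 : E.c₄ = ((W.c₄ : ℤ) : ℚ) := by rw [hE, WeierstrassCurve.map_c₄]; rfl
  have hD : E.Δ = ((W.Δ : ℤ) : ℚ) := by rw [hE, WeierstrassCurve.map_Δ]; rfl
  have hEΔ : E.Δ ≠ 0 := by
    rw [hD]; exact_mod_cast hΔ
  -- Galois descent of the stable lines (packages A, B, L)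
  obtain ⟨x₀, hx₀⟩ := t3_exists_rat_root_psi3 E hEΔ h3
  obtain ⟨s₁, s₂, x₁, x₂, hs₁, hs₂, hne, h1, h2, hd1, hd2⟩ := exists_kernel5 E hEΔ h5
  -- the explicit model of X_0(15) and its rational points (packages C, D)
  obtain ⟨t, ht, hj⟩ := exists_t_of Descent.quartic_rational_points E hEΔ x₀ hx₀ s₁ s₂ x₁ x₂
    hs₁ hs₂ hne h1 h2 hd1 hd2
  rw [hc4, hD] at hj
  -- the four j-invariants are not semistable (package E)
  rcases ht with rfl | rfl | rfl | rfl
  · refine false_of_j W hW (-121945 / 32) ?_ (Or.inr (Or.inr (Or.inl rfl)))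
    linear_combination (-1 / 32 : ℚ) * hj
  · refine false_of_j W hW (-25 / 2) ?_ (Or.inl rfl)
    linear_combination (-1 / 2 : ℚ) * hj
  · refine false_of_j W hW (-349938025 / 8) ?_ (Or.inr (Or.inl rfl))
    linear_combination (-2 / 729 : ℚ) * hj
  · refine false_of_j W hW (46969655 / 32768) ?_ (Or.inr (Or.inr (Or.inr rfl)))
    linear_combination (-32 / 729 : ℚ) * hj

end Fermat.Agent.S51
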