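-- Statement S53 (GaloisRep.nonempty_deformationRingData): existence of the universal deformation
-- ring of type `𝒟`.  Design R (rigidify + abstract representability):
--   * `Fermat.Agent.S53.AR.abstract_rep` (helper94): abstract representability theorem;
--   * `Fermat.Agent.S53.Final76.nonempty_deformationRingData_of_AT` (helper76): instantiation with
--     the functor of normalized good matrix lifts and final assembly.
import Fermat.Statements.S53
import Fermat.Agent.S53.AR.Main
import Fermat.Agent.S53.Final76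

set_option autoImplicit false
set_option autoImplicit false
open GaloisRep

namespace Fermat.Agent.S53

theorem result
    (𝒪 : Type) [CommRing 𝒪] [IsDomain 𝒪] [IsDiscreteValuationRing 𝒪]
    [IsAdicComplete (IsLocalRing.maximalIdeal 𝒪) 𝒪] [Finite (IsLocalRing.ResidueField 𝒪)]
    (ρbar : ResidualGaloisRep (IsLocalRing.ResidueField 𝒪))
    (𝒟 : ∀ ⦃A : Type⦄ [CommRing A] [IsLocalRing A] [Algebra 𝒪 A], GaloisRepAdic A → Prop)
    (habs : ρbar.IsAbsolutelyIrreducible)
    (h𝒟 : GaloisRep.IsDeformationCondition 𝒪 𝒟)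
    (hbar : 𝒟 (GaloisRepAdic.ofResidualGaloisRep ρbar))
    (hfin : GaloisRep.TangentFinite 𝒪 ρbar 𝒟) :
    Nonempty (GaloisRep.DeformationRingData 𝒪 ρbar 𝒟) := by
  exact Final76.nonempty_deformationRingData_of_AT 𝒪
    (fun I F hmap hinj hfib hk hfin => AR.abstract_rep 𝒪 I F hmap hinj hfib hk hfin)
    ρbar 𝒟 habs h𝒟 hbar hfin

end Fermat.Agent.S53
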