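-- Statement S55 (row 49): Poitou–Tate duality pairing sha¹(M^∨(1)) × sha²(M) → 𝔽_p, non-degenerate (p odd, p ∈ S).
-- Assembly: helper33 `Final33h.s55_of_allCore` (formal top layer + plugs), helper20 `RecipFinal20.reciprocity`
-- (global reciprocity, P34), helper99 `LimDesc99.A3.allCore_uncond` (class formation datum over every open V, P1/P6).
import Fermat.Statements.S55
import Fermat.Agent.S55.RecipFinal20S55
import Fermat.Agent.S55.LimDesc99.AllCoreUncond

set_option autoImplicit false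
open CategoryTheory Module groupCohomology ExtCitation
open groupCohomology

namespace Fermat.Agent.S55

theorem result
    {p : ℕ} [Fact p.Prime] (hp2 : p ≠ 2) (S : Finset Nat.Primes) (hpS : pPrime p ∈ S)
    (M : Rep (ZMod p) (AlgebraicClosure ℚ ≃ₐ[ℚ] AlgebraicClosure ℚ))
    [FiniteDimensional (ZMod p) M]
    (hsm : ∀ m : M, ∃ F : IntermediateField ℚ (AlgebraicClosure ℚ), FiniteDimensional ℚ F ∧
      ∀ s ∈ F.fixingSubgroup, M.ρ s m = m)
    (hMur : ∀ q : Nat.Primes, q ∉ S → ∀ A : ValuationSubring (AlgebraicClosure ℚ),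
      A.LiesOverPrime (q : ℕ) → ∀ g ∈ A.inertiaSubgroupIn ℚ, M.ρ g = 1) :
    ∃ B : sha₁ S (M.dualTwist (cycloChar p)) →ₗ[ZMod p] sha₂ S M →ₗ[ZMod p] ZMod p,
      (∀ y, (∀ x, B y x = 0) → y = 0) ∧ (∀ x, (∀ y, B y x = 0) → x = 0) :=
  Fermat.Agent.S55.RecipFinal20.s55_of_allCore_only hp2 S hpS M hsm hMur
    (fun p _ hp2 S hpS => Fermat.Agent.S55.LimDesc99.A3.allCore_uncond hp2 S hpS)

end Fermat.Agent.S55
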